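import Mathlib
import Fermat.Agent.LT.T6.Spec
import Fermat.Agent.LT.T6.H863.Reps
import Fermat.Agent.LT.T6.H196.GenLvlAbs

/-!
# Row LT, tower T6 -- adapter (helper22, architect of T6), OFF-MAIN: EXISTENCE of the convolution
# product of bi-invariant functions of finite support

`T6.IsConv` / `T6.IsConvProd` (`T6/Spec.lean`) are RELATIONS; the split clause of
`H893.LocHyp893` / `B970.LocFin970` asks for a function `f₀ v` with
`IsConvProd (InU (m v)) l (fun j => φ₀ (w j) ∘ map (i j)) (f₀ v)` which is bi-invariant of finite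
support.  Here: for ANY group `Γ`, any subgroup predicate `U` and bi-`U`-invariant functions
`φ j` of finite support modulo `U` the convolution product EXISTS and is bi-`U`-invariant of
finite support (no compactness is needed: the support of `φ * ψ` is in the cosets `h x U`,
`h` in the representatives of the support of `φ`, `x` in those of `ψ`).

* `exists_conv22`     : two factors;
* `exists_convProd22` : `l` factors, with `IsBiInv` and `HasFinSupp` of the product.

Mathlib + `T6/Spec.lean` + `T6/H863/Reps` (helper863) + `T6/H196/GenLvlAbs` (helper196,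
`IsSub196`); ADDITIVE, new names only (suffix `22`); every proof is complete.
-/

set_option autoImplicit false

open scoped Classical

noncomputable section

namespace Fermat.Agent.LT.T6.H22

open Fermat.Agent.LT.T6 Fermat.Agent.LT.T6.H196 Fermat.Agent.LT.T6.H863

variable {Γ : Type} [Group Γ]

/-- Right equivalence modulo `U`: `h' = h u`. -/
def RRel22 (U : Γ → Prop) (h h' : Γ) : Prop := ∃ u : Γ, U u ∧ h' = h * u

theorem rRel_equiv22 {U : Γ → Prop} (hU : IsSub196 U) : Equivalence (RRel22 U) where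
  refl h := ⟨1, hU.one, (mul_one h).symm⟩
  symm := by
    rintro h h' ⟨u, hu, rfl⟩
    exact ⟨u⁻¹, hU.inv _ hu, by group⟩
  trans := by
    rintro h h' h'' ⟨u, hu, rfl⟩ ⟨w, hw, rfl⟩
    exact ⟨u * w, hU.mul _ _ hu hw, by group⟩

theorem biInv_left22 {U : Γ → Prop} (hU : IsSub196 U) {φ : Γ → ℂ} (hφ : IsBiInv U φ)
    (u g : Γ) (hu : U u) : φ (u * g) = φ g := by
  have := hφ u 1 g hu hU.one
  rwa [mul_one] at this

theorem biInv_right22 {U : Γ → Prop} (hU : IsSub196 U) {φ : Γ → ℂ} (hφ : IsBiInv U φ)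
    (u g : Γ) (hu : U u) : φ (g * u) = φ g := by
  have := hφ 1 u g hU.one hu
  rwa [one_mul] at this

/-- **Existence of the convolution** of two bi-invariant functions of finite support. -/
theorem exists_conv22 {U : Γ → Prop} (hU : IsSub196 U) (φ ψ : Γ → ℂ)
    (hφ : IsBiInv U φ) (hφs : HasFinSupp U φ) (hψ : IsBiInv U ψ) (hψs : HasFinSupp U ψ) :
    ∃ χ : Γ → ℂ, IsConv U φ ψ χ ∧ IsBiInv U χ ∧ HasFinSupp U χ := by
  obtain ⟨F, hF⟩ := hφs
  obtain ⟨F', hF'⟩ := hψs
  obtain ⟨R, -, hRi, hRc⟩ := exists_reps_863 (RRel22 U) (rRel_equiv22 hU) F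
  have hcov : ∀ h : Γ, φ h ≠ 0 → ∃ h' ∈ R, ∃ u : Γ, U u ∧ h = h' * u := by
    intro h hh
    obtain ⟨x, hx, u, hu, rfl⟩ := hF h hh
    obtain ⟨r, hr, u', hu', rfl⟩ := hRc x hx
    exact ⟨x * u', hr, u'⁻¹ * u, hU.mul _ _ (hU.inv _ hu') hu, by group⟩
  set χ : Γ → ℂ := fun g => ∑ h ∈ R, φ h * ψ (h⁻¹ * g) with hχ
  have hright : ∀ (g u : Γ), U u → χ (g * u) = χ g := by
    intro g u hu
    simp only [hχ]
    refine Finset.sum_congr rfl (fun h _ => ?_)
    rw [← mul_assoc, biInv_right22 hU hψ u _ hu]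
  have hleft : ∀ (g u : Γ), U u → χ (u * g) = χ g := by
    intro g u hu
    simp only [hχ]
    set Fg : Γ → ℂ := fun h => φ h * ψ (h⁻¹ * g) with hFg
    have hcl : ∀ a b, RRel22 U a b → Fg a = Fg b := by
      rintro a b ⟨u₁, hu₁, rfl⟩
      simp only [hFg]
      rw [biInv_right22 hU hφ u₁ a hu₁]
      have : (a * u₁)⁻¹ * g = u₁⁻¹ * (a⁻¹ * g) := by group
      rw [this, biInv_left22 hU hψ u₁⁻¹ _ (hU.inv _ hu₁)]
    have h1 : ∑ h ∈ R, φ h * ψ (h⁻¹ * (u * g)) = ∑ h ∈ R.image (fun h => u⁻¹ * h), Fg h := by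
      rw [Finset.sum_image (fun a _ b _ hab => mul_left_cancel hab)]
      refine Finset.sum_congr rfl (fun h _ => ?_)
      simp only [hFg]
      rw [biInv_left22 hU hφ u⁻¹ h (hU.inv _ hu)]
      congr 2
      group
    rw [h1]
    refine sum_reps_eq_863 (RRel22 U) (rRel_equiv22 hU) Fg hcl _ _ ?_ hRi ?_ ?_
    · intro a ha b hb hab
      obtain ⟨a', ha', rfl⟩ := Finset.mem_image.mp ha
      obtain ⟨b', hb', rfl⟩ := Finset.mem_image.mp hb
      obtain ⟨u₁, hu₁, e⟩ := hab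
      have : a' = b' := hRi a' ha' b' hb' ⟨u₁, hu₁, by
        have := congrArg (fun t => u * t) e
        simpa [mul_assoc] using this⟩
      rw [this]
    · intro a ha
      have hφa : φ a ≠ 0 := left_ne_zero_of_mul ha
      have hφua : φ (u * a) ≠ 0 := by rwa [biInv_left22 hU hφ u a hu]
      obtain ⟨r, hr, u₁, hu₁, e⟩ := hcov _ hφua
      refine ⟨u⁻¹ * r, Finset.mem_image.mpr ⟨r, hr, rfl⟩, u₁⁻¹, hU.inv _ hu₁, ?_⟩
      have : a = u⁻¹ * (r * u₁) := by rw [← e]; group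
      rw [this]; group
    · intro a ha
      have hφa : φ a ≠ 0 := left_ne_zero_of_mul ha
      obtain ⟨r, hr, u₁, hu₁, e⟩ := hcov _ hφa
      exact ⟨r, hr, u₁⁻¹, hU.inv _ hu₁, by rw [e]; group⟩
  refine ⟨χ, ?_, ?_, ?_⟩
  · intro g
    refine ⟨R, ?_, ?_, rfl⟩
    · intro h hh h' hh' hrel
      exact hRi h hh h' hh' hrel
    · intro h hne
      exact hcov h (left_ne_zero_of_mul hne)
  · intro u u' g hu hu'
    rw [hright _ _ hu', hleft _ _ hu]
  · refine ⟨(R ×ˢ F').image (fun p => p.1 * p.2), fun g hg => ?_⟩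
    have hg' : ∑ h ∈ R, φ h * ψ (h⁻¹ * g) ≠ 0 := hg
    obtain ⟨h, hh, hne⟩ := Finset.exists_ne_zero_of_sum_ne_zero hg'
    have hψne : ψ (h⁻¹ * g) ≠ 0 := right_ne_zero_of_mul hne
    obtain ⟨x, hx, u, hu, e⟩ := hF' _ hψne
    refine ⟨h * x, Finset.mem_image.mpr ⟨(h, x), Finset.mem_product.mpr ⟨hh, hx⟩, rfl⟩, u, hu, ?_⟩
    rw [mul_assoc, ← e]; group

/-- The chain of partial convolution products exists, with bi-invariance and finite support. -/
theorem exists_convChain22 {U : Γ → Prop} (hU : IsSub196 U) (φ : ℕ → Γ → ℂ)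
    (hφ : ∀ j, IsBiInv U (φ j)) (hφs : ∀ j, HasFinSupp U (φ j)) (L : ℕ) :
    ∃ χ : ℕ → Γ → ℂ, χ 0 = φ 0 ∧
      (∀ m : ℕ, m < L → IsConv U (χ m) (φ (m + 1)) (χ (m + 1))) ∧
      ∀ m : ℕ, m ≤ L → IsBiInv U (χ m) ∧ HasFinSupp U (χ m) := by
  induction L with
  | zero =>
    refine ⟨fun _ => φ 0, rfl, fun m hm => absurd hm (Nat.not_lt_zero m), fun m hm => ?_⟩
    exact ⟨hφ 0, hφs 0⟩
  | succ L ih =>
    obtain ⟨χ, h0, hc, hb⟩ := ih
    obtain ⟨χ', hc', hb', hs'⟩ :=
      exists_conv22 hU (χ L) (φ (L + 1)) (hb L le_rfl).1 (hb L le_rfl).2 (hφ _) (hφs _)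
    refine ⟨fun m => if m = L + 1 then χ' else χ m, ?_, ?_, ?_⟩
    · simp only [show (0 : ℕ) ≠ L + 1 from (Nat.succ_ne_zero L).symm, if_false]
      exact h0
    · intro m hm
      rcases Nat.lt_succ_iff_lt_or_eq.mp hm with hlt | rfl
      · have h1 : m ≠ L + 1 := by omega
        have h2 : m + 1 ≠ L + 1 := by omega
        simp only [h1, h2, if_false]
        exact hc m hlt
      · have h1 : m ≠ m + 1 := by omega
        simp only [h1, if_false, if_true]
        exact hc'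
    · intro m hm
      rcases Nat.le_succ_iff.mp hm with hle | rfl
      · have h1 : m ≠ L + 1 := by omega
        simp only [h1, if_false]
        exact hb m hle
      · simp only [if_true]
        exact ⟨hb', hs'⟩

/-- **EXISTENCE OF THE CONVOLUTION PRODUCT** `φ 0 * φ 1 * ⋯ * φ (l-1)` (relation
`T6.IsConvProd`) of bi-`U`-invariant functions of finite support; the product is bi-`U`-invariant
of finite support. -/
theorem exists_convProd22 {U : Γ → Prop} (hU : IsSub196 U) (l : ℕ) (φ : ℕ → Γ → ℂ)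
    (hφ : ∀ j, IsBiInv U (φ j)) (hφs : ∀ j, HasFinSupp U (φ j)) :
    ∃ f : Γ → ℂ, IsConvProd U l φ f ∧ IsBiInv U f ∧ HasFinSupp U f := by
  obtain ⟨χ, h0, hc, hb⟩ := exists_convChain22 hU φ hφ hφs (l - 1)
  refine ⟨χ (l - 1), ⟨χ, h0, fun m hm => hc m (by omega), rfl⟩, (hb _ le_rfl).1, (hb _ le_rfl).2⟩

end Fermat.Agent.LT.T6.H22

end
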