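import Fermat.Agent.LT.T6.H22.TwLvl

/-!
# Row LT, tower T6, ADAPTER (architect helper22): double coset functions

OFF-MAIN.  ADDITIVE (new names only, suffix `22`).  The indicator function of a double coset
`U(n) y U(n)` of `GL₂(k)`, `k` a local field, is bi-`U(n)`-invariant and supported on FINITELY
many cosets `x U(n)` (the hypotheses of `T6.BadMatchC`, `H22.BadLevelsC22`, `H22.inertPartner22`
for the components `H893.dblFn893 n y` of the second pair at the bad places).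

    IsDblInd22 n y φ       : `φ` is the indicator function of `U(n) y U(n)` (no `ite`: the form
                             does not depend on the decidability instance)
    isBiInv_dbl22          : IsDblInd22 n y φ → IsBiInv (InU n) φ
    hasFinSupp_dbl22       : IsLocalField k q → IsDblInd22 n y φ → HasFinSupp (InU n) φ
    inU_conj_deep22        : entries of `y`, `y⁻¹` of valuation `≤ exp c`, `u ∈ U(n + 2c)`
                             ⟹ `y⁻¹ u y ∈ U(n)`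
-/

set_option autoImplicit false

open scoped Matrix

noncomputable section

namespace Fermat.Agent.LT.T6.H22

open Fermat.Agent.LT.T6 Fermat.Agent.LT.T6.H846 Fermat.Agent.LT.T6.H196

variable {k : Type} [Field k] [Valued k Γ₀]

/-- `φ` is the indicator function of the double coset `U(n) y U(n)`. -/
def IsDblInd22 (n : ℕ) (y : GL (Fin 2) k) (φ : GL (Fin 2) k → ℂ) : Prop :=
  ∀ x : GL (Fin 2) k,
    ((∃ u₁ u₂ : GL (Fin 2) k, InU n u₁ ∧ InU n u₂ ∧ x = u₁ * y * u₂) → φ x = 1) ∧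
    ((¬ ∃ u₁ u₂ : GL (Fin 2) k, InU n u₁ ∧ InU n u₂ ∧ x = u₁ * y * u₂) → φ x = 0)

/-- The indicator function given by `ite` (any decidability instance) is of this form. -/
theorem isDblInd_ite22 (n : ℕ) (y : GL (Fin 2) k)
    (inst : ∀ x : GL (Fin 2) k,
      Decidable (∃ u₁ u₂ : GL (Fin 2) k, InU n u₁ ∧ InU n u₂ ∧ x = u₁ * y * u₂)) :
    IsDblInd22 n y (fun x =>
      @ite ℂ (∃ u₁ u₂ : GL (Fin 2) k, InU n u₁ ∧ InU n u₂ ∧ x = u₁ * y * u₂) (inst x) 1 0) :=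
  fun x => ⟨fun h => by simp only [h, if_true], fun h => by simp only [h, if_false]⟩

theorem dbl_ne_zero_iff22 {n : ℕ} {y : GL (Fin 2) k} {φ : GL (Fin 2) k → ℂ}
    (h : IsDblInd22 n y φ) (x : GL (Fin 2) k) :
    φ x ≠ 0 ↔ ∃ u₁ u₂ : GL (Fin 2) k, InU n u₁ ∧ InU n u₂ ∧ x = u₁ * y * u₂ := by
  constructor
  · intro hx
    by_contra hn
    exact hx ((h x).2 hn)
  · intro hx
    rw [(h x).1 hx]
    exact one_ne_zero

/-- The double coset function is bi-invariant. -/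
theorem isBiInv_dbl22 {n : ℕ} {y : GL (Fin 2) k} {φ : GL (Fin 2) k → ℂ}
    (h : IsDblInd22 n y φ) : IsBiInv (InU n) φ := by
  intro u u' g hu hu'
  by_cases hg : ∃ u₁ u₂ : GL (Fin 2) k, InU n u₁ ∧ InU n u₂ ∧ g = u₁ * y * u₂
  · rw [(h g).1 hg]
    apply (h _).1
    obtain ⟨u₁, u₂, h₁, h₂, rfl⟩ := hg
    exact ⟨u * u₁, u₂ * u', inU_mul846 n _ _ hu h₁, inU_mul846 n _ _ h₂ hu', by group⟩
  · rw [(h g).2 hg]
    apply (h _).2
    rintro ⟨u₁, u₂, h₁, h₂, e⟩
    apply hg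
    refine ⟨u⁻¹ * u₁, u₂ * u'⁻¹, inU_mul846 n _ _ (inU_inv846 n _ hu) h₁,
      inU_mul846 n _ _ h₂ (inU_inv846 n _ hu'), ?_⟩
    calc g = u⁻¹ * (u * g * u') * u'⁻¹ := by group
      _ = u⁻¹ * (u₁ * y * u₂) * u'⁻¹ := by rw [e]
      _ = u⁻¹ * u₁ * y * (u₂ * u'⁻¹) := by group

/-- Every element of the value group is bounded by some `exp c`, `c : ℕ`. -/
theorem exists_le_exp22 (γ : Γ₀) : ∃ c : ℕ, γ ≤ WithZero.exp ((c : ℕ) : ℤ) := by
  by_cases h0 : γ = 0
  · exact ⟨0, by rw [h0]; exact zero_le'⟩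
  · refine ⟨(WithZero.log γ).toNat, ?_⟩
    rw [← WithZero.exp_log h0, WithZero.exp_le_exp]
    exact Int.self_le_toNat _

/-- The entries of a matrix are bounded by some `exp c`. -/
theorem exists_entLe22 (A : Matrix (Fin 2) (Fin 2) k) :
    ∃ c : ℕ, EntLe846 (WithZero.exp ((c : ℕ) : ℤ)) A := by
  choose c hc using fun p : Fin 2 × Fin 2 => exists_le_exp22 (Valued.v (A p.1 p.2))
  refine ⟨Finset.univ.sup c, fun i j => (hc (i, j)).trans ?_⟩
  rw [WithZero.exp_le_exp]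
  exact_mod_cast Finset.le_sup (f := c) (Finset.mem_univ (i, j))

/-- Conjugation by `y` maps a deep congruence subgroup into `U(n)`. -/
theorem inU_conj_deep22 (n c : ℕ) (y u : GL (Fin 2) k)
    (hy : EntLe846 (WithZero.exp ((c : ℕ) : ℤ)) (y : Matrix (Fin 2) (Fin 2) k))
    (hy' : EntLe846 (WithZero.exp ((c : ℕ) : ℤ))
      ((y⁻¹ : GL (Fin 2) k) : Matrix (Fin 2) (Fin 2) k))
    (hu : InU (n + 2 * c) u) : InU n (y⁻¹ * u * y) := by
  have hyy : ((y⁻¹ : GL (Fin 2) k) : Matrix (Fin 2) (Fin 2) k)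
      * (y : Matrix (Fin 2) (Fin 2) k) = 1 := by
    rw [← Units.val_mul, inv_mul_cancel, Units.val_one]
  have key : ∀ g : GL (Fin 2) k,
      EntLe846 (WithZero.exp (-((n + 2 * c : ℕ) : ℤ))) ((g : Matrix (Fin 2) (Fin 2) k) - 1) →
      EntLe846 (WithZero.exp (-(n : ℤ)))
        (((y⁻¹ * g * y : GL (Fin 2) k) : Matrix (Fin 2) (Fin 2) k) - 1) := by
    intro g hg
    have e : ((y⁻¹ * g * y : GL (Fin 2) k) : Matrix (Fin 2) (Fin 2) k) - 1
        = ((y⁻¹ : GL (Fin 2) k) : Matrix (Fin 2) (Fin 2) k)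
          * ((g : Matrix (Fin 2) (Fin 2) k) - 1) * (y : Matrix (Fin 2) (Fin 2) k) := by
      rw [Units.val_mul, Units.val_mul, Matrix.mul_sub, Matrix.sub_mul, mul_one, hyy]
    rw [e]
    have h1 := (hy'.mul hg).mul hy
    refine EntLe846.mono (le_of_eq ?_) h1
    rw [← WithZero.exp_add, ← WithZero.exp_add]
    congr 1
    push_cast
    ring
  rw [inU_iff846] at hu ⊢
  refine ⟨key u hu.1, ?_⟩
  have e2 : (y⁻¹ * u * y)⁻¹ = y⁻¹ * u⁻¹ * y := by group
  rw [e2]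
  exact key u⁻¹ hu.2

/-- The double coset function is supported on finitely many cosets. -/
theorem hasFinSupp_dbl22 {q : ℕ} (hk : IsLocalField k q) {n : ℕ} {y : GL (Fin 2) k}
    {φ : GL (Fin 2) k → ℂ} (h : IsDblInd22 n y φ) : HasFinSupp (InU n) φ := by
  classical
  obtain ⟨c₁, hc₁⟩ := exists_entLe22 (y : Matrix (Fin 2) (Fin 2) k)
  obtain ⟨c₂, hc₂⟩ := exists_entLe22 ((y⁻¹ : GL (Fin 2) k) : Matrix (Fin 2) (Fin 2) k)
  set c : ℕ := max c₁ c₂ with hc
  have hle : ∀ a : ℕ, a ≤ c →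
      (WithZero.exp ((a : ℕ) : ℤ) : Γ₀) ≤ WithZero.exp ((c : ℕ) : ℤ) := by
    intro a ha
    rw [WithZero.exp_le_exp]
    exact_mod_cast ha
  have hy := EntLe846.mono (hle c₁ (le_max_left _ _)) hc₁
  have hy' := EntLe846.mono (hle c₂ (le_max_right _ _)) hc₂
  -- representatives of `U(n) / U(n + 2c)`
  set f : GL (Fin 2) k → ℂ := fun g => if InU n g then 1 else 0 with hf
  have hsupp : HasFinSupp (InU n) f := by
    refine ⟨{1}, fun g hg => ⟨1, Finset.mem_singleton_self 1, g, ?_, (one_mul g).symm⟩⟩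
    by_contra hgU
    apply hg
    simp [hf, hgU]
  obtain ⟨F, hF⟩ := H125.finSuppLvlC125 k q hk n (n + 2 * c) f (Nat.le_add_right _ _) hsupp
  refine ⟨F.image (fun x => x * y), fun g hg => ?_⟩
  obtain ⟨u₁, u₂, h₁, h₂, rfl⟩ := (dbl_ne_zero_iff22 h g).1 hg
  have hfu : f u₁ ≠ 0 := by simp [hf, h₁]
  obtain ⟨x, hx, u, hu, rfl⟩ := hF u₁ hfu
  refine ⟨x * y, Finset.mem_image.2 ⟨x, hx, rfl⟩, y⁻¹ * u * y * u₂,
    inU_mul846 n _ _ (inU_conj_deep22 n c y u hy hy' hu) h₂, by group⟩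

end Fermat.Agent.LT.T6.H22

end
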