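import Fermat.Agent.LT.T6.H22.InertPartner
import Fermat.Agent.LT.T6.H22.DblCoset

/-!
# Row LT, tower T6, ADAPTER (architect helper22): the partner of a DOUBLE COSET function

OFF-MAIN.  ADDITIVE.  `H22.inertPartner22` for the indicator function of a double coset
`U'(n₀) y U'(n₀)` of `GL₂(K'_w)` (the component `H893.dblFn893 (n₀ w) (finGL305 w g)` of the
second pair at a bad place `v` with ONE place `w` over it): no hypothesis on the function is
left.  UNCONDITIONAL.

    inertPartnerDbl22 : (hypotheses of `T6.InstExtC`) → ∀ n₀ y φ, IsDblInd22 n₀ y φ →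
      ∃ m₀, ∀ n m, n₀ ≤ n → m₀ ≤ m → ∃ f, IsBiInv (InU m) f ∧ HasFinSupp (InU m) f ∧
        (the clause `inert` of `H305.LocHyp305` / `H893.LocHyp893` for `(φ, f)` at the levels
         `(n, m)`, for every compatible local datum)
    dbl_inv_up22 : the clause `inv_up` for `φ` at every level `n ≥ n₀`
-/

set_option autoImplicit false

open IsDedekindDomain NumberField

noncomputable section

namespace Fermat.Agent.LT.T6.H22

open Fermat.Agent.LT.T6

/-- The clause `inv_up` for a double coset function at every deeper level. -/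
theorem dbl_inv_up22 {k : Type} [Field k] [Valued k Γ₀] {q : ℕ} (hk : IsLocalField k q)
    {n₀ n : ℕ} (hn : n₀ ≤ n) {y : GL (Fin 2) k} {φ : GL (Fin 2) k → ℂ}
    (h : IsDblInd22 n₀ y φ) : IsBiInv (InU n) φ ∧ HasFinSupp (InU n) φ :=
  ⟨fun u u' g hu hu' => isBiInv_dbl22 h u u' g (inU_mono22 hn hu) (inU_mono22 hn hu'),
    H125.finSuppLvlC125 k q hk n₀ n φ hn (hasFinSupp_dbl22 hk h)⟩

/-- **The partner of a double coset function at a bad place with one place over it, at all
deep levels.** -/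
theorem inertPartnerDbl22 (K K' : Type) [Field K] [NumberField K] [Field K'] [NumberField K']
    [Algebra K K'] [IsGalois K K'] (s : K' ≃ₐ[K] K')
    (hgen : ∀ t : K' ≃ₐ[K] K', t ∈ Subgroup.zpowers s)
    (hprime : (Module.finrank K K').Prime)
    (v : HeightOneSpectrum (𝓞 K)) (w : HeightOneSpectrum (𝓞 K'))
    (hvw : ∀ x : 𝓞 K, x ∈ v.asIdeal ↔ algebraMap (𝓞 K) (𝓞 K') x ∈ w.asIdeal)
    (honly : ∀ w' : HeightOneSpectrum (𝓞 K'),
      (∀ x : 𝓞 K, x ∈ v.asIdeal → algebraMap (𝓞 K) (𝓞 K') x ∈ w'.asIdeal) → w' = w)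
    (n₀ : ℕ) (y : GL (Fin 2) (w.adicCompletion K'))
    (φ : GL (Fin 2) (w.adicCompletion K') → ℂ) (hφ : IsDblInd22 n₀ y φ) :
    ∃ m₀ : ℕ, ∀ n m : ℕ, n₀ ≤ n → m₀ ≤ m →
      ∃ f : GL (Fin 2) (v.adicCompletion K) → ℂ,
        IsBiInv (InU m) f ∧ HasFinSupp (InU m) f ∧
        ∀ σ : K' ≃+* K', (∀ y : K', σ y = s y) →
        ∀ (e : ℕ) (i : v.adicCompletion K →+* w.adicCompletion K')
          (sw : w.adicCompletion K' ≃+* w.adicCompletion K'),
          (∀ x : K, i (algebraMap K (v.adicCompletion K) x)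
            = algebraMap K' (w.adicCompletion K') (algebraMap K K' x)) →
          (∀ y : K', sw (algebraMap K' (w.adicCompletion K') y)
            = algebraMap K' (w.adicCompletion K') (σ y)) →
          IsLocalExt (v.adicCompletion K) (w.adicCompletion K') (Module.finrank K K') e i sw →
          (∀ (δ : GL (Fin 2) (w.adicCompletion K')) (γ : GL (Fin 2) (v.adicCompletion K))
              (c c' : ℂ), IsReg γ →
              IsConj (twNorm sw (Module.finrank K K') δ) (Matrix.GeneralLinearGroup.map i γ) →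
              IsTwOrbSum sw n φ δ c → IsOrbSum m f γ c' → c = c') ∧
            ∀ (γ : GL (Fin 2) (v.adicCompletion K)) (c' : ℂ), IsReg γ →
              ¬ IsNormFrom (Module.finrank K K') i sw γ → IsOrbSum m f γ c' → c' = 0 :=
  inertPartner22 K K' s hgen hprime v w hvw honly n₀ φ (isBiInv_dbl22 hφ)
    (hasFinSupp_dbl22 (top_closed.2.2.2.2.2.1 K' w) hφ)

end Fermat.Agent.LT.T6.H22

end
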