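import Mathlib
import Fermat.Agent.LT.T6.Spec

/-!
# Row LT, tower T6 -- adapter (helper22, architect of T6), OFF-MAIN: transport of bi-invariant
# functions of finite support along an isomorphism of valued fields

For `i : k ≃+* k'` which preserves the valuation (the identification `K_v ≃ K'_w` at a split
place, `T6.InstSplitC`) and `φ` on `GL₂(k')` bi-`U(n)`-invariant of finite support, the function
`g ↦ φ (GL₂(i) g)` on `GL₂(k)` is bi-`U(n)`-invariant of finite support: the factors of the
convolution product in the split clause of `H893.LocHyp893` / `B970.LocFin970`.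

Mathlib + `T6/Spec.lean` only; ADDITIVE, new names only (suffix `22`).
-/

set_option autoImplicit false

noncomputable section

namespace Fermat.Agent.LT.T6.H22

open Fermat.Agent.LT.T6

variable {k k' : Type} [Field k] [Field k'] [Valued k Γ₀] [Valued k' Γ₀]

theorem glMap_apply22 (i : k →+* k') (g : GL (Fin 2) k) (a b : Fin 2) :
    (Matrix.GeneralLinearGroup.map i g : Matrix (Fin 2) (Fin 2) k') a b
      = i ((g : Matrix (Fin 2) (Fin 2) k) a b) := rfl

/-- A homomorphism which preserves the valuation maps `U(n)` into `U(n)`. -/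
theorem inU_map22 (i : k →+* k') (hval : ∀ x : k, Valued.v (i x) = Valued.v x) (n : ℕ)
    (u : GL (Fin 2) k) (hu : InU n u) : InU n (Matrix.GeneralLinearGroup.map i u) := by
  have key : ∀ (g : GL (Fin 2) k) (a b : Fin 2),
      Valued.v ((Matrix.GeneralLinearGroup.map i g : Matrix (Fin 2) (Fin 2) k') a b
          - (1 : Matrix (Fin 2) (Fin 2) k') a b)
        = Valued.v ((g : Matrix (Fin 2) (Fin 2) k) a b - (1 : Matrix (Fin 2) (Fin 2) k) a b) := by
    intro g a b
    have h1 : (1 : Matrix (Fin 2) (Fin 2) k') a b = i ((1 : Matrix (Fin 2) (Fin 2) k) a b) := by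
      rw [Matrix.one_apply, Matrix.one_apply]
      split_ifs <;> simp
    rw [glMap_apply22]
    conv_lhs => rw [h1]
    rw [← map_sub, hval]
  intro a b
  refine ⟨?_, ?_⟩
  · rw [key]
    exact (hu a b).1
  · have : (Matrix.GeneralLinearGroup.map i u)⁻¹ = Matrix.GeneralLinearGroup.map i u⁻¹ :=
      (map_inv (Matrix.GeneralLinearGroup.map i) u).symm
    rw [this, key]
    exact (hu a b).2

theorem glMap_symm22 (i : k ≃+* k') (g : GL (Fin 2) k) :
    Matrix.GeneralLinearGroup.map ((i.symm : k' ≃+* k) : k' →+* k)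
      (Matrix.GeneralLinearGroup.map ((i : k ≃+* k') : k →+* k') g) = g := by
  apply Matrix.GeneralLinearGroup.ext
  intro a b
  rw [glMap_apply22, glMap_apply22]
  exact i.symm_apply_apply _

/-- **Transport along an isomorphism which preserves the valuation.** -/
theorem transport22 (i : k ≃+* k') (hval : ∀ x : k, Valued.v (i x) = Valued.v x) (n : ℕ)
    (φ : GL (Fin 2) k' → ℂ) (hb : IsBiInv (InU n) φ) (hs : HasFinSupp (InU n) φ) :
    IsBiInv (InU n) (fun g => φ (Matrix.GeneralLinearGroup.map ((i : k ≃+* k') : k →+* k') g)) ∧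
      HasFinSupp (InU n)
        (fun g => φ (Matrix.GeneralLinearGroup.map ((i : k ≃+* k') : k →+* k') g)) := by
  classical
  have hval' : ∀ y : k', Valued.v (((i.symm : k' ≃+* k) : k' →+* k) y) = Valued.v y := by
    intro y
    have := hval (i.symm y)
    rw [i.apply_symm_apply] at this
    exact this.symm
  refine ⟨?_, ?_⟩
  · intro u u' g hu hu'
    show φ (Matrix.GeneralLinearGroup.map _ (u * g * u')) = φ (Matrix.GeneralLinearGroup.map _ g)
    rw [map_mul, map_mul]
    exact hb _ _ _ (inU_map22 _ hval n u hu) (inU_map22 _ hval n u' hu')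
  · obtain ⟨F, hF⟩ := hs
    refine ⟨F.image (Matrix.GeneralLinearGroup.map ((i.symm : k' ≃+* k) : k' →+* k)),
      fun g hg => ?_⟩
    obtain ⟨x, hx, u, hu, e⟩ := hF _ hg
    refine ⟨_, Finset.mem_image.mpr ⟨x, hx, rfl⟩,
      Matrix.GeneralLinearGroup.map ((i.symm : k' ≃+* k) : k' →+* k) u,
      inU_map22 _ hval' n u hu, ?_⟩
    rw [← map_mul, ← e, glMap_symm22]

end Fermat.Agent.LT.T6.H22

end
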