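import Fermat.Agent.LT.T6.H22.TwLvl
import Fermat.Agent.LT.T6.H783.BadTop
import Fermat.Agent.LT.T6.H783.CenTop

/-!
# Row LT, tower T6, ADAPTER (architect helper22): the partner at ALL DEEP LEVELS

OFF-MAIN.  ADDITIVE (new names only, suffix `22`).

`T6.BadMatchC` gives, for `φ` of level `n₀` upstairs, a partner `f` of SOME level `m₀`
downstairs, with the orbit sums normalised by `vol U'(n₀) = 1`, `vol U(m₀) = 1`.  The consumers
(tower T7: `H893.LocB893b`, `H305.LocHyp305.inert`, the mirror over `ℚ`) need the partner at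
the levels `(n w, m v)` of a GLOBAL level `𝔫` and `𝔫 𝒪_{K'}`, which are tied to each other and
can only be chosen DEEP.  This is what is proved here:

    BadLevelsC22 : for `φ` bi-`U'(n₀)`-invariant of finite support there is `m₀` such that for
      ALL `n ≥ n₀` and ALL `m ≥ m₀` there is `f`, bi-`U(m)`-invariant of finite support, with
      `O^{(m)}_γ(f) = TO^{(n)}_δ(φ)` for `γ = N δ` regular and `O^{(m)}_γ(f) = 0` for `γ`
      regular, not a norm.

    badLevels_of22 : BadMatchC → OrbSumExC → OrbSumUniqC → H783.LvlC783 → H783.FinSuppLvlC783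
      → TwLvlC22 → BadLevelsC22          (PROVED here; all six inputs are closed)

Proof.  `(m₀, f₁)` from `BadMatchC` at the level `n₀`; `κ'` = the constant of the twisted level
change `n₀ → n` upstairs (`TwLvlC22`), `κ` = the constant of the level change `m₀ → m`
downstairs (`LvlC783`); `f = (κ' / κ) f₁`.
-/

set_option autoImplicit false

open scoped Matrix

noncomputable section

namespace Fermat.Agent.LT.T6.H22

open Fermat.Agent.LT.T6 Fermat.Agent.LT.T6.H783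

/-- **The partner at all deep levels** (the form of `T6.BadMatchC` which the global
construction uses). -/
def BadLevelsC22 : Prop :=
  ∀ (k k' : Type) [Field k] [Field k'] [Valued k Γ₀] [Valued k' Γ₀] (q l e : ℕ)
    (i : k →+* k') (s : k' ≃+* k'),
    IsLocalField k q → IsLocalField k' (q ^ (l / e)) → IsLocalExt k k' l e i s → l.Prime →
    ∀ (n₀ : ℕ) (φ : GL (Fin 2) k' → ℂ), IsBiInv (InU n₀) φ → HasFinSupp (InU n₀) φ →
    ∃ m₀ : ℕ, ∀ n m : ℕ, n₀ ≤ n → m₀ ≤ m →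
      ∃ f : GL (Fin 2) k → ℂ, IsBiInv (InU m) f ∧ HasFinSupp (InU m) f ∧
        (∀ (δ : GL (Fin 2) k') (γ : GL (Fin 2) k) (c c' : ℂ), IsReg γ →
          IsConj (twNorm s l δ) (Matrix.GeneralLinearGroup.map i γ) →
          IsTwOrbSum s n φ δ c → IsOrbSum m f γ c' → c = c') ∧
        ∀ (γ : GL (Fin 2) k) (c' : ℂ), IsReg γ → ¬ IsNormFrom l i s γ →
          IsOrbSum m f γ c' → c' = 0

/-- **The partner at all deep levels, from the closed leaves of T6.** -/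
theorem badLevels_of22 (hBad : BadMatchC) (hEx : OrbSumExC) (hUniq : OrbSumUniqC)
    (hLvl : LvlC783) (hFin : FinSuppLvlC783) (hTw : TwLvlC22) : BadLevelsC22 := by
  intro k k' _ _ _ _ q l e i s hk hk' hext hl n₀ φ hφb hφf
  obtain ⟨m₀, f₁, hf₁b, hf₁f, hmatch, hvan⟩ :=
    hBad k k' q l e i s hk hk' hext hl n₀ φ hφb hφf
  refine ⟨m₀, fun n m hn hm => ?_⟩
  obtain ⟨κ', hκ', hup⟩ := hTw k' (q ^ (l / e)) l s hk' hext.val_s hext.cyc.order n₀ n hn
  obtain ⟨κ, hκ, hdown⟩ := hLvl k q hk m₀ m hm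
  have hκ'c : (κ' : ℂ) ≠ 0 := Nat.cast_ne_zero.mpr hκ'
  have hκc : (κ : ℂ) ≠ 0 := Nat.cast_ne_zero.mpr hκ
  set a : ℂ := (κ' : ℂ) / (κ : ℂ) with ha
  have hf₁bm : IsBiInv (InU m) f₁ := isBiInv_mono783 hm hf₁b
  have hf₁fm : HasFinSupp (InU m) f₁ := hFin k q hk m₀ m f₁ hm hf₁f
  have hfb : IsBiInv (InU m) (a • f₁) := isBiInv_smul783 a hf₁bm
  have hff : HasFinSupp (InU m) (a • f₁) := hasFinSupp_smul783 a hf₁fm
  -- the orbit sums of `a • f₁` at the level `m`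
  have key : ∀ (γ : GL (Fin 2) k) (c' d₀ : ℂ), IsReg γ → IsOrbSum m₀ f₁ γ d₀ →
      IsOrbSum m (a • f₁) γ c' → c' = (κ' : ℂ) * d₀ := by
    intro γ c' d₀ hγ hd₀ hc'
    obtain ⟨d, hd⟩ := orbEx783 hEx hk hf₁bm hf₁fm hγ
    have h1 : d = (κ : ℂ) * d₀ := hdown f₁ hf₁b γ d₀ d hγ hd₀ hd
    have h2 : IsOrbSum m (a • f₁) γ (a * d) := orbSum_smul783 a hd
    have h3 : c' = a * d := orbUniq783 hUniq hfb hc' h2
    rw [h3, h1, ha]
    field_simp
  refine ⟨a • f₁, hfb, hff, ?_, ?_⟩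
  · intro δ γ c c' hγ hconj hc hc'
    have hreg : IsReg (twNorm s l δ) := isReg_of_conj_map783 i hγ hconj
    obtain ⟨c₀, hc₀⟩ := hEx k k' q l e i s hk hk' hext n₀ φ hφb hφf δ hreg
    obtain ⟨d₀, hd₀⟩ := orbEx783 hEx hk hf₁b hf₁f hγ
    have h1 : c₀ = d₀ := hmatch δ γ c₀ d₀ hγ hconj hc₀ hd₀
    have h2 : c = (κ' : ℂ) * c₀ := hup φ hφb δ c₀ c hreg hc₀ hc
    have h3 : c' = (κ' : ℂ) * d₀ := key γ c' d₀ hγ hd₀ hc'
    rw [h2, h3, h1]
  · intro γ c' hγ hnn hc'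
    obtain ⟨d₀, hd₀⟩ := orbEx783 hEx hk hf₁b hf₁f hγ
    have h1 : d₀ = 0 := hvan γ d₀ hγ hnn hd₀
    have h3 : c' = (κ' : ℂ) * d₀ := key γ c' d₀ hγ hd₀ hc'
    rw [h3, h1, mul_zero]

end Fermat.Agent.LT.T6.H22

end
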