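import Fermat.Agent.LT.T6.H22.BadLevels
import Fermat.Agent.LT.T6.H777.Lvl
import Fermat.Agent.LT.T6.H420.OrbSumExFull
import Fermat.Agent.LT.T6.Closed

/-!
# Row LT, tower T6, ADAPTER (architect helper22): the partner at ALL DEEP LEVELS -- CLOSED

OFF-MAIN.  ADDITIVE.  `badLevelsC22_closed : H22.BadLevelsC22`, UNCONDITIONAL, on the closed
tower T6 (`T6/Closed.lean`): for `φ` bi-`U'(n₀)`-invariant of finite support there is `m₀` such
that for ALL `n ≥ n₀`, `m ≥ m₀` there is a partner `f` of level `m` with
`O^{(m)}_γ(f) = TO^{(n)}_δ(φ)` at the regular norms and `O^{(m)}_γ(f) = 0` at the regular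
elements which are not norms.  Also `twLvlC22_closed` (twisted level change) and the level
change downstairs in the same form.
-/

set_option autoImplicit false

noncomputable section

namespace Fermat.Agent.LT.T6.H22

open Fermat.Agent.LT.T6

/-- **The partner at all deep levels, UNCONDITIONAL.** -/
theorem badLevelsC22_closed : BadLevelsC22 :=
  badLevels_of22 badMatch_closed H420.orbSumExC420 H944.orbSumUniqC944 H777.lvlC777
    H125.finSuppLvlC125 twLvlC22

/-- The twisted level change, UNCONDITIONAL (restated for the consumers). -/
theorem twLvlC22_closed : TwLvlC22 := twLvlC22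

end Fermat.Agent.LT.T6.H22

end
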