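import Fermat.Agent.LT.T6.H22.BadLevelsClosed
import Fermat.Agent.LT.T6.LocDatumUniq

/-!
# Row LT, tower T6, ADAPTER (architect helper22): the `inert` clause at a bad place, CLOSED

OFF-MAIN.  ADDITIVE.  The conclusion of `H22.BadLevelsC22` for the completions of a cyclic
extension `K'/K` of number fields of prime degree at a place `v` of `K` with ONE place `w` of
`K'` over it (inert or ramified), with the hypotheses of `T6.InstExtC` and the conclusion in
the shape of the clause `inert` of `H305.LocHyp305` / `H893.LocHyp893` (for EVERY compatible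
local datum `(e, i, s_w)`):

    inertPartner22 : … → ∀ n₀ φ, IsBiInv (InU n₀) φ → HasFinSupp (InU n₀) φ →
      ∃ m₀, ∀ n m, n₀ ≤ n → m₀ ≤ m → ∃ f, IsBiInv (InU m) f ∧ HasFinSupp (InU m) f ∧
        ∀ σ, (∀ y, σ y = s y) → ∀ e i sw, (compatible) → IsLocalExt K_v K'_w l e i sw →
          (matching at the levels (n, m)) ∧ (vanishing at the non-norms)

UNCONDITIONAL (closed tower T6: `instLocalC`, `instExtC`, `badMatch_closed`, the level changes,
the uniqueness of the local datum `locDatum_all_of_one22`).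
-/

set_option autoImplicit false

open IsDedekindDomain NumberField

noncomputable section

namespace Fermat.Agent.LT.T6.H22

open Fermat.Agent.LT.T6

/-- **The `inert` clause at one place, at all deep levels.** -/
theorem inertPartner22 (K K' : Type) [Field K] [NumberField K] [Field K'] [NumberField K']
    [Algebra K K'] [IsGalois K K'] (s : K' ≃ₐ[K] K')
    (hgen : ∀ t : K' ≃ₐ[K] K', t ∈ Subgroup.zpowers s)
    (hprime : (Module.finrank K K').Prime)
    (v : HeightOneSpectrum (𝓞 K)) (w : HeightOneSpectrum (𝓞 K'))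
    (hvw : ∀ x : 𝓞 K, x ∈ v.asIdeal ↔ algebraMap (𝓞 K) (𝓞 K') x ∈ w.asIdeal)
    (honly : ∀ w' : HeightOneSpectrum (𝓞 K'),
      (∀ x : 𝓞 K, x ∈ v.asIdeal → algebraMap (𝓞 K) (𝓞 K') x ∈ w'.asIdeal) → w' = w)
    (n₀ : ℕ) (φ : GL (Fin 2) (w.adicCompletion K') → ℂ)
    (hφb : IsBiInv (InU n₀) φ) (hφf : HasFinSupp (InU n₀) φ) :
    ∃ m₀ : ℕ, ∀ n m : ℕ, n₀ ≤ n → m₀ ≤ m →
      ∃ f : GL (Fin 2) (v.adicCompletion K) → ℂ,
        IsBiInv (InU m) f ∧ HasFinSupp (InU m) f ∧
        ∀ σ : K' ≃+* K', (∀ y : K', σ y = s y) →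
        ∀ (e : ℕ) (i : v.adicCompletion K →+* w.adicCompletion K')
          (sw : w.adicCompletion K' ≃+* w.adicCompletion K'),
          (∀ x : K, i (algebraMap K (v.adicCompletion K) x)
            = algebraMap K' (w.adicCompletion K') (algebraMap K K' x)) →
          (∀ y : K', sw (algebraMap K' (w.adicCompletion K') y)
            = algebraMap K' (w.adicCompletion K') (σ y)) →
          IsLocalExt (v.adicCompletion K) (w.adicCompletion K') (Module.finrank K K') e i sw →
          (∀ (δ : GL (Fin 2) (w.adicCompletion K')) (γ : GL (Fin 2) (v.adicCompletion K))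
              (c c' : ℂ), IsReg γ →
              IsConj (twNorm sw (Module.finrank K K') δ) (Matrix.GeneralLinearGroup.map i γ) →
              IsTwOrbSum sw n φ δ c → IsOrbSum m f γ c' → c = c') ∧
            ∀ (γ : GL (Fin 2) (v.adicCompletion K)) (c' : ℂ), IsReg γ →
              ¬ IsNormFrom (Module.finrank K K') i sw γ → IsOrbSum m f γ c' → c' = 0 := by
  obtain ⟨e₀, i₀, sw₀, hi₀, hs₀, hE₀, hN⟩ :=
    top_closed.2.2.2.2.2.2.1 K K' s hgen hprime v w hvw honly
  have hkv : IsLocalField (v.adicCompletion K) (Ideal.absNorm v.asIdeal) :=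
    top_closed.2.2.2.2.2.1 K v
  have hkw : IsLocalField (w.adicCompletion K')
      (Ideal.absNorm v.asIdeal ^ (Module.finrank K K' / e₀)) := by
    rw [← hN]
    exact top_closed.2.2.2.2.2.1 K' w
  obtain ⟨m₀, hm₀⟩ := badLevelsC22_closed (v.adicCompletion K) (w.adicCompletion K')
    (Ideal.absNorm v.asIdeal) (Module.finrank K K') e₀ i₀ sw₀ hkv hkw hE₀ hprime n₀ φ hφb hφf
  refine ⟨m₀, fun n m hn hm => ?_⟩
  obtain ⟨f, hfb, hff, hmatch, hvan⟩ := hm₀ n m hn hm
  refine ⟨f, hfb, hff, fun σ hσ => ?_⟩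
  have hs₀' : ∀ y : K', sw₀ (algebraMap K' (w.adicCompletion K') y)
      = algebraMap K' (w.adicCompletion K') (σ y) := fun y => by rw [hσ y]; exact hs₀ y
  exact locDatum_all_of_one22 σ v w (Module.finrank K K')
    (fun _ i sw =>
      (∀ (δ : GL (Fin 2) (w.adicCompletion K')) (γ : GL (Fin 2) (v.adicCompletion K))
          (c c' : ℂ), IsReg γ →
          IsConj (twNorm sw (Module.finrank K K') δ) (Matrix.GeneralLinearGroup.map i γ) →
          IsTwOrbSum sw n φ δ c → IsOrbSum m f γ c' → c = c') ∧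
        ∀ (γ : GL (Fin 2) (v.adicCompletion K)) (c' : ℂ), IsReg γ →
          ¬ IsNormFrom (Module.finrank K K') i sw γ → IsOrbSum m f γ c' → c' = 0)
    e₀ i₀ sw₀ hi₀ hs₀' hE₀ ⟨hmatch, hvan⟩

end Fermat.Agent.LT.T6.H22

end
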