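import Fermat.Agent.LT.T6.H22.TwLvlAbs
import Fermat.Agent.LT.T6.H846.OrbAlg
import Fermat.Agent.LT.T6.H420.Conj2
import Fermat.Agent.LT.T6.H125.Cut
import Fermat.Agent.LT.T6.H944.OrbSumUniq

/-!
# Row LT, tower T6, ADAPTER (architect helper22): twisted level change -- part 2, `GL₂(k)`

OFF-MAIN.  ADDITIVE (new names only, suffix `22`).

    twLvlC22 : TwLvlC22

**Twisted level change.**  `k` a local field, `s` an automorphism of `k` which preserves the
valuation, `s ^ l = 1`, `n₀ ≤ n`: there is `κ ≠ 0` (`= [U(n₀) : U(n)]`, independent of `φ`, `δ`)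
with `TO^{(n)}_δ(φ) = κ · TO^{(n₀)}_δ(φ)` for every bi-`U(n₀)`-invariant `φ` and every `δ` with
regular norm.  (`s = 1`, `l = 1`: `H783.LvlC783`, closed by helper777.)

Closed inputs (byte-identical copies): the algebra of the twisted centraliser of helper846
(`LT/T6/H846/OrbAlg.lean`), the norm of a twisted conjugate of helper420
(`LT/T6/H420/Conj2.lean`), `finSuppLvlC125` (helper125), `orbSumUniqC944` (helper944), the
counting lemma of helper196 (`LT/T6/H196/GenLvlAbs.lean`).
-/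

set_option autoImplicit false

open scoped Matrix

noncomputable section

namespace Fermat.Agent.LT.T6.H22

open Fermat.Agent.LT.T6 Fermat.Agent.LT.T6.H196 Fermat.Agent.LT.T6.H846 Fermat.Agent.LT.T6.H783

/-- **Twisted level change of orbit sums.** -/
def TwLvlC22 : Prop :=
  ∀ (k : Type) [Field k] [Valued k Γ₀] (q l : ℕ) (s : k ≃+* k), IsLocalField k q →
    (∀ y : k, Valued.v (s y) = Valued.v y) → (∀ y : k, (s ^ l) y = y) →
    ∀ n₀ n : ℕ, n₀ ≤ n → ∃ κ : ℕ, κ ≠ 0 ∧
      ∀ φ : GL (Fin 2) k → ℂ, IsBiInv (InU n₀) φ →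
        ∀ (δ : GL (Fin 2) k) (c c' : ℂ), IsReg (twNorm s l δ) →
          IsTwOrbSum s n₀ φ δ c → IsTwOrbSum s n φ δ c' → c' = (κ : ℂ) * c

section Algebra

variable {k : Type} [Field k] [Valued k Γ₀]

theorem inU_mono22 {m m' : ℕ} (h : m ≤ m') {g : GL (Fin 2) k} (hg : InU m' g) : InU m g := by
  have hle : (WithZero.exp (-(m' : ℤ)) : Γ₀) ≤ WithZero.exp (-(m : ℤ)) := by
    rw [WithZero.exp_le_exp]
    omega
  intro i j
  exact ⟨le_trans (hg i j).1 hle, le_trans (hg i j).2 hle⟩

/-- `U(m)` is a subgroup. -/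
theorem isSub_inU22 (m : ℕ) : IsSub196 (InU (k := k) m) where
  one := inU_one846 m
  mul := fun a b ha hb => inU_mul846 m a b ha hb
  inv := fun a ha => inU_inv846 m a ha

omit [Valued k Γ₀] in
/-- The discriminant is invariant under conjugation. -/
theorem isReg_conj22 (h x : GL (Fin 2) k) (hreg : IsReg h) : IsReg (x⁻¹ * h * x) := by
  unfold IsReg disc at hreg ⊢
  rw [H420.trace_conj_GL, H420.det_conj_GL]
  exact hreg

theorem valued_two_le_one22 : Valued.v (2 : k) ≤ 1 := by
  have : (2 : k) = 1 + 1 := by norm_num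
  rw [this]
  exact Valuation.map_add_le _ (by simp) (by simp)

/-- `1` lies in the compact part of every twisted centraliser. -/
theorem inTwCentC_one22 (s : k ≃+* k) (y : GL (Fin 2) k) : InTwCentC s y 1 := by
  refine ⟨?_, ?_, ?_⟩
  · change (1 : GL (Fin 2) k)⁻¹ * y * glAut s 1 = y
    rw [map_one, inv_one, one_mul, mul_one]
  · rw [Units.val_one, Matrix.trace_one, Fintype.card_fin]
    have : ((2 : ℕ) : k) = 2 := by norm_num
    rw [this]
    exact valued_two_le_one22
  · rw [Units.val_one, Matrix.det_one, map_one]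

/-- The compact part of a twisted centraliser is closed under inverses. -/
theorem inTwCentC_inv22 (s : k ≃+* k) (y t : GL (Fin 2) k) (ht : InTwCentC s y t) :
    InTwCentC s y t⁻¹ := by
  obtain ⟨h1, h2, h3⟩ := ht
  have h1' : t⁻¹ * y * glAut s t = y := h1
  have hdet : (t : Matrix (Fin 2) (Fin 2) k).det
      * ((t⁻¹ : GL (Fin 2) k) : Matrix (Fin 2) (Fin 2) k).det = 1 := by
    rw [← Matrix.det_mul, ← Units.val_mul, mul_inv_cancel]
    simp
  have hvdet : Valued.v ((t⁻¹ : GL (Fin 2) k) : Matrix (Fin 2) (Fin 2) k).det = 1 := by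
    have := congrArg Valued.v hdet
    rw [map_mul, h3, one_mul, map_one] at this
    exact this
  refine ⟨?_, ?_, hvdet⟩
  · change (t⁻¹)⁻¹ * y * glAut s t⁻¹ = y
    rw [inv_inv, map_inv]
    calc t * y * (glAut s t)⁻¹ = t * (t⁻¹ * y * glAut s t) * (glAut s t)⁻¹ := by rw [h1']
      _ = y := by group
  · -- `tr t⁻¹ = tr t · det t⁻¹`
    have hadj : ((t⁻¹ : GL (Fin 2) k) : Matrix (Fin 2) (Fin 2) k)
        = ((t⁻¹ : GL (Fin 2) k) : Matrix (Fin 2) (Fin 2) k).det
          • (t : Matrix (Fin 2) (Fin 2) k).adjugate := by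
      have e1 : (t : Matrix (Fin 2) (Fin 2) k) * ((t⁻¹ : GL (Fin 2) k) : Matrix (Fin 2) (Fin 2) k)
          = 1 := by
        rw [← Units.val_mul, mul_inv_cancel]
        rfl
      calc ((t⁻¹ : GL (Fin 2) k) : Matrix (Fin 2) (Fin 2) k)
          = ((t : Matrix (Fin 2) (Fin 2) k).det
              * ((t⁻¹ : GL (Fin 2) k) : Matrix (Fin 2) (Fin 2) k).det)
            • ((t⁻¹ : GL (Fin 2) k) : Matrix (Fin 2) (Fin 2) k) := by rw [hdet, one_smul]
        _ = ((t⁻¹ : GL (Fin 2) k) : Matrix (Fin 2) (Fin 2) k).det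
            • (((t : Matrix (Fin 2) (Fin 2) k).adjugate * (t : Matrix (Fin 2) (Fin 2) k))
              * ((t⁻¹ : GL (Fin 2) k) : Matrix (Fin 2) (Fin 2) k)) := by
            rw [Matrix.adjugate_mul, Matrix.smul_mul, one_mul, smul_smul, mul_comm]
        _ = _ := by rw [mul_assoc, e1, mul_one]
    have htr : (t : Matrix (Fin 2) (Fin 2) k).adjugate.trace
        = (t : Matrix (Fin 2) (Fin 2) k).trace := by
      rw [Matrix.adjugate_fin_two, Matrix.trace_fin_two, Matrix.trace_fin_two]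
      simp only [Matrix.of_apply, Matrix.cons_val', Matrix.cons_val_zero, Matrix.cons_val_one,
        Matrix.cons_val_fin_one]
      exact add_comm _ _
    rw [hadj, Matrix.trace_smul, htr, smul_eq_mul, map_mul, hvdet, one_mul]
    exact h2

/-- The compact part of the twisted centraliser of an element with regular norm is a
subgroup. -/
theorem isSub_inTwCentC22 (s : k ≃+* k) (l : ℕ) (hl : ∀ y : k, (s ^ l) y = y)
    (y : GL (Fin 2) k) (hreg : IsReg (twNorm s l y)) : IsSub196 (InTwCentC s y) where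
  one := inTwCentC_one22 s y
  mul := fun a b ha hb => inTwCentC_mul846 s l hl y hreg a b ha hb
  inv := fun a ha => inTwCentC_inv22 s y a ha

/-- `U(n₀) / U(n)` is finite. -/
theorem finite_cosets22 {q : ℕ} (hk : IsLocalField k q) {n₀ n : ℕ} (hn : n₀ ≤ n) :
    {c : Set (GL (Fin 2) k) | ∃ g, InU n₀ g ∧ c = lc196 (InU n) g}.Finite := by
  classical
  have hU : IsSub196 (InU (k := k) n) := isSub_inU22 n
  set f : GL (Fin 2) k → ℂ := fun g => if InU n₀ g then 1 else 0 with hf
  have hsupp : HasFinSupp (InU n₀) f := by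
    refine ⟨{1}, fun g hg => ⟨1, Finset.mem_singleton_self 1, g, ?_, (one_mul g).symm⟩⟩
    by_contra hgU
    apply hg
    simp [hf, hgU]
  obtain ⟨F, hF⟩ := H125.finSuppLvlC125 k q hk n₀ n f hn hsupp
  refine (F.finite_toSet.image (lc196 (InU n))).subset ?_
  rintro c ⟨g, hg, rfl⟩
  have hfg : f g ≠ 0 := by simp [hf, hg]
  obtain ⟨x, hx, u, hu, rfl⟩ := hF g hfg
  refine ⟨x, hx, ?_⟩
  apply lc196_eq_of hU
  have : x⁻¹ * (x * u) = u := by group
  rw [this]
  exact hu

end Algebra

/-- **The twisted level change is closed.** -/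
theorem twLvlC22 : TwLvlC22 := by
  intro k _ _ q l s hk hs hl n₀ n hn
  classical
  have hU : IsSub196 (InU (k := k) n) := isSub_inU22 n
  have hΓ : IsSub196 (InU (k := k) n₀) := isSub_inU22 n₀
  have hUΓ : ∀ g : GL (Fin 2) k, InU n g → InU n₀ g := fun g hg => inU_mono22 hn hg
  have hfin := finite_cosets22 (k := k) hk hn
  refine ⟨Set.ncard {c : Set (GL (Fin 2) k) | ∃ g, InU n₀ g ∧ c = lc196 (InU n) g}, ?_, ?_⟩
  · have hne : {c : Set (GL (Fin 2) k) | ∃ g, InU n₀ g ∧ c = lc196 (InU n) g}.Nonempty :=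
      ⟨lc196 (InU n) 1, 1, hΓ.one, rfl⟩
    exact ((Set.ncard_pos hfin).mpr hne).ne'
  · intro φ hφ δ c c' hreg hc hc'
    have hsum' : IsOrbSumGen (glAut s) (InU n) (InTwCentC s) φ δ c' := hc'
    obtain ⟨c₁, hc₁, hcc⟩ := twLvl_abs22 (glAut s) (InU n) (InU n₀) (InTwCentC s) hU hΓ hUΓ hfin
      φ
      (by
        intro g x hg
        have h1 : InU n₀ g⁻¹ := hΓ.inv _ hg
        have h2 : InU n₀ (glAut s g) := inU_glAut846 s hs n₀ g hg
        exact hφ g⁻¹ (glAut s g) x h1 h2)
      δ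
      (by
        rintro y ⟨x, rfl⟩
        apply isSub_inTwCentC22 s l hl
        rw [H420.twNorm_twConj s l hl]
        exact isReg_conj22 _ x hreg)
      (by
        intro y t ht
        exact ht.1)
      (by
        intro y x t
        exact inTwCentC_conj846 s y x t)
      (by
        intro y g hg hgy
        exact inTwCentC_of_inU846 s n₀ y g hg hgy)
      c' hsum'
    have hc₁' : IsTwOrbSum s n₀ φ δ c₁ := hc₁
    have := H944.orbSumUniqC944 k s hs n₀ φ hφ δ c c₁ hc hc₁'
    rw [hcc, this]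

end Fermat.Agent.LT.T6.H22

end
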