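import Mathlib
import Fermat.Agent.LT.T6.Spec
import Fermat.Agent.LT.T6.H196.GenLvlAbs

/-!
# Row LT, tower T6, ADAPTER (architect helper22): twisted level change -- part 1, abstract form

OFF-MAIN.  ADDITIVE (new names only, suffix `22`).  The abstract level change of helper196
(`LT/T6/H196/GenLvlOrb.lean`, `genLvl_abs196`, ordinary conjugation) for the TWISTED conjugation
`y ↦ g⁻¹ y s(g)` of a group `G` with an endomorphism `s`:

`U ⊂ Γ` subgroups with `Γ / U` finite, `C y` (the "compact part of the twisted centraliser of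
`y`") a subgroup of the twisted centraliser of `y` containing the twisted centraliser of `y` in
`Γ`, equivariant under twisted conjugation; `ψ` invariant under twisted conjugation by `Γ`.  Then
an orbit sum of `ψ` at `h` for `U` is `[Γ : U]` times an orbit sum for `Γ`.

The counting lemma `H196.count196` is used as it is (it does not involve the conjugation).
-/

set_option autoImplicit false

noncomputable section

namespace Fermat.Agent.LT.T6.H22

open Fermat.Agent.LT.T6 Fermat.Agent.LT.T6.H196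

variable {G : Type} [Group G]

/-- Twisted conjugation `y ↦ g⁻¹ y s(g)` (a right action of `G` on itself). -/
def tc22 (s : G →* G) (y g : G) : G := g⁻¹ * y * s g

theorem tc22_def (s : G →* G) (y g : G) : tc22 s y g = g⁻¹ * y * s g := rfl

theorem tc22_one (s : G →* G) (y : G) : tc22 s y 1 = y := by
  simp [tc22]

theorem tc22_mul (s : G →* G) (y g g' : G) : tc22 s (tc22 s y g) g' = tc22 s y (g * g') := by
  simp [tc22, mul_assoc]

theorem tc22_inv (s : G →* G) (y g : G) : tc22 s (tc22 s y g) g⁻¹ = y := by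
  rw [tc22_mul, mul_inv_cancel, tc22_one]

theorem tc22_inv' (s : G →* G) (y g : G) : tc22 s (tc22 s y g⁻¹) g = y := by
  rw [tc22_mul, inv_mul_cancel, tc22_one]

/-- `cIndex` in terms of `lc196`. -/
theorem cIndex_eq22 (U : G → Prop) (C : G → G → Prop) (y : G) :
    cIndex U C y = Set.ncard {c : Set G | ∃ t, C y t ∧ c = lc196 U t} := rfl

/-- The index at a twisted conjugate `g⁻¹ y s(g)`. -/
theorem cIndex_tc22 (s : G →* G) (U : G → Prop) (C : G → G → Prop)
    (hCconj : ∀ y x t, C (x⁻¹ * y * s x) (x⁻¹ * t * x) ↔ C y t) (y g : G) :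
    cIndex U C (g⁻¹ * y * s g)
      = Set.ncard {c : Set G | ∃ t, C y t ∧ c = lc196 U (t * g)} := by
  rw [cIndex_eq22]
  have : {c : Set G | ∃ t, C (g⁻¹ * y * s g) t ∧ c = lc196 U t}
      = ltr196 g⁻¹ '' {c : Set G | ∃ t, C y t ∧ c = lc196 U (t * g)} := by
    ext c
    constructor
    · rintro ⟨t', ht', rfl⟩
      refine ⟨lc196 U (g * t' * g⁻¹ * g), ⟨g * t' * g⁻¹, ?_, rfl⟩, ?_⟩
      · rw [← hCconj y g (g * t' * g⁻¹)]
        have : g⁻¹ * (g * t' * g⁻¹) * g = t' := by group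
        rw [this]
        exact ht'
      · rw [ltr196_lc]
        congr 1
        group
    · rintro ⟨_, ⟨t, ht, rfl⟩, rfl⟩
      refine ⟨g⁻¹ * t * g, (hCconj y g t).mpr ht, ?_⟩
      rw [ltr196_lc]
      congr 1
      group
  rw [this, Set.ncard_image_of_injective _ (ltr196_injective _)]

/-- **Twisted level change, abstract form.** -/
theorem twLvl_abs22 (s : G →* G) (U Γ : G → Prop) (C : G → G → Prop)
    (hU : IsSub196 U) (hΓ : IsSub196 Γ) (hUΓ : ∀ g, U g → Γ g)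
    (hfin : {c : Set G | ∃ g, Γ g ∧ c = lc196 U g}.Finite)
    (ψ : G → ℂ) (hψ : ∀ g x, Γ g → ψ (g⁻¹ * x * s g) = ψ x)
    (h : G)
    (hCsub : ∀ y, (∃ x, y = x⁻¹ * h * s x) → IsSub196 (C y))
    (hCcent : ∀ y t, C y t → t⁻¹ * y * s t = y)
    (hCconj : ∀ y x t, C (x⁻¹ * y * s x) (x⁻¹ * t * x) ↔ C y t)
    (hCΓ : ∀ y g, Γ g → g⁻¹ * y * s g = y → C y g)
    (c' : ℂ) (hsum : IsOrbSumGen s U C ψ h c') :
    ∃ c : ℂ, IsOrbSumGen s Γ C ψ h c ∧
      c' = ((Set.ncard {c : Set G | ∃ g, Γ g ∧ c = lc196 U g} : ℕ) : ℂ) * c := by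
  classical
  obtain ⟨R', h1, h2, h3, h4⟩ := hsum
  set κ : ℕ := Set.ncard {c : Set G | ∃ g, Γ g ∧ c = lc196 U g} with hκ
  -- twisted conjugation by `Γ`
  set rel : G → G → Prop := fun y y' => ∃ g, Γ g ∧ y' = tc22 s y g with hrel
  have rel_refl : ∀ y, rel y y := fun y => ⟨1, hΓ.one, (tc22_one s y).symm⟩
  have rel_symm : ∀ y y', rel y y' → rel y' y := by
    rintro y y' ⟨g, hg, rfl⟩
    exact ⟨g⁻¹, hΓ.inv _ hg, (tc22_inv s y g).symm⟩
  have rel_trans : ∀ y y' y'', rel y y' → rel y' y'' → rel y y'' := by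
    rintro y y' y'' ⟨g, hg, rfl⟩ ⟨g', hg', rfl⟩
    exact ⟨g * g', hΓ.mul _ _ hg hg', tc22_mul s y g g'⟩
  have rel_ψ : ∀ y y', rel y y' → ψ y' = ψ y := by
    rintro y y' ⟨g, hg, rfl⟩
    exact hψ g y hg
  have rel_class : ∀ y y', rel y y' → (∃ x, y = x⁻¹ * h * s x) → ∃ x, y' = x⁻¹ * h * s x := by
    rintro y y' ⟨g, hg, rfl⟩ ⟨x, rfl⟩
    exact ⟨x * g, tc22_mul s h x g⟩
  have rel_of_U : ∀ y y' u, U u → y' = u⁻¹ * y * s u → rel y y' := fun y y' u hu h =>
    ⟨u, hUΓ u hu, h⟩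
  -- the support
  set R'' : Finset G := R'.filter (fun y => ψ y ≠ 0) with hR''
  have hR''mem : ∀ y, y ∈ R'' ↔ y ∈ R' ∧ ψ y ≠ 0 := fun y => Finset.mem_filter
  -- representatives
  set rep : G → G := fun y => Classical.epsilon (fun y₀ => y₀ ∈ R'' ∧ rel y₀ y) with hrep
  have rep_spec : ∀ y ∈ R'', rep y ∈ R'' ∧ rel (rep y) y := fun y hy =>
    Classical.epsilon_spec (p := fun y₀ => y₀ ∈ R'' ∧ rel y₀ y) ⟨y, hy, rel_refl y⟩
  have rep_congr : ∀ y y', rel y y' → rep y = rep y' := by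
    intro y y' hyy'
    have : (fun y₀ => y₀ ∈ R'' ∧ rel y₀ y) = (fun y₀ => y₀ ∈ R'' ∧ rel y₀ y') := by
      funext y₀
      apply propext
      constructor
      · rintro ⟨ha, hb⟩
        exact ⟨ha, rel_trans _ _ _ hb hyy'⟩
      · rintro ⟨ha, hb⟩
        exact ⟨ha, rel_trans _ _ _ hb (rel_symm _ _ hyy')⟩
    change Classical.epsilon (fun y₀ => y₀ ∈ R'' ∧ rel y₀ y)
      = Classical.epsilon (fun y₀ => y₀ ∈ R'' ∧ rel y₀ y')
    rw [this]
  set R : Finset G := R''.image rep with hR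
  have hRmem : ∀ y ∈ R, y ∈ R'' ∧ rep y = y := by
    intro y hy
    obtain ⟨a, ha, rfl⟩ := Finset.mem_image.mp hy
    exact ⟨(rep_spec a ha).1, rep_congr _ _ (rep_spec a ha).2⟩
  refine ⟨∑ y ∈ R, ψ y * (cIndex Γ C y : ℂ), ⟨R, ?_, ?_, ?_, rfl⟩, ?_⟩
  · intro y hy
    exact h1 y ((hR''mem y).mp (hRmem y hy).1).1
  · rintro y hy y' hy' ⟨g, hg, hgy⟩
    rw [← (hRmem y hy).2, ← (hRmem y' hy').2]
    exact rep_congr _ _ ⟨g, hg, hgy⟩
  · intro y hy hψy
    obtain ⟨y₁, hy₁, u, hu, hyu⟩ := h3 y hy hψy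
    have hrel1 : rel y₁ y := rel_of_U _ _ u hu hyu
    have hψ1 : ψ y₁ ≠ 0 := by
      rw [← rel_ψ _ _ hrel1]
      exact hψy
    have hy₁'' : y₁ ∈ R'' := (hR''mem y₁).mpr ⟨hy₁, hψ1⟩
    obtain ⟨g, hg, hgy⟩ := rel_trans _ _ _ (rep_spec y₁ hy₁'').2 hrel1
    exact ⟨rep y₁, Finset.mem_image_of_mem _ hy₁'', g, hg, hgy⟩
  · -- the value
    have e1 : c' = ∑ y ∈ R'', ψ y * (cIndex U C y : ℂ) := by
      rw [h4, hR'']
      symm
      apply Finset.sum_filter_of_ne
      intro y _ hne hz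
      apply hne
      rw [hz, zero_mul]
    have e2 : ∑ y ∈ R'', ψ y * (cIndex U C y : ℂ)
        = ∑ y ∈ R, ∑ y' ∈ R'' with rep y' = y, ψ y' * (cIndex U C y' : ℂ) :=
      (Finset.sum_fiberwise_of_maps_to (fun y hy => Finset.mem_image_of_mem rep hy) _).symm
    rw [e1, e2, Finset.mul_sum]
    apply Finset.sum_congr rfl
    intro y hy
    obtain ⟨hy'', hrepy⟩ := hRmem y hy
    have hyclass : ∃ x, y = x⁻¹ * h * s x := h1 y ((hR''mem y).mp hy'').1
    have hψy : ψ y ≠ 0 := ((hR''mem y).mp hy'').2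
    set J : Finset G := R''.filter (fun y' => rep y' = y) with hJ
    have hJmem : ∀ j, j ∈ J ↔ j ∈ R'' ∧ rep j = y := fun j => Finset.mem_filter
    have hJrel : ∀ j ∈ J, rel y j := by
      intro j hj
      obtain ⟨hj'', hrj⟩ := (hJmem j).mp hj
      have := (rep_spec j hj'').2
      rw [hrj] at this
      exact this
    -- the elements `γ j`
    have hγex : ∀ j, ∃ g, j ∈ J → (Γ g ∧ j = tc22 s y g) := by
      intro j
      by_cases hj : j ∈ J
      · obtain ⟨g, hg, hgj⟩ := hJrel j hj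
        exact ⟨g, fun _ => ⟨hg, hgj⟩⟩
      · exact ⟨1, fun h' => absurd h' hj⟩
    choose γ hγ using hγex
    have hA : IsSub196 (C y) := hCsub y hyclass
    have hcount := count196 U Γ (C y) hU hΓ hA hUΓ hfin J γ (fun j hj => (hγ j hj).1)
      (by
        rintro j hj j' hj' ⟨a, u, ha, hu, hγj'⟩
        apply h2 j ((hR''mem j).mp ((hJmem j).mp hj).1).1 j'
          ((hR''mem j').mp ((hJmem j').mp hj').1).1
        refine ⟨u, hu, ?_⟩
        have ej := (hγ j hj).2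
        have ej' := (hγ j' hj').2
        have ea : tc22 s y a = y := hCcent y a ha
        calc j' = tc22 s y (γ j') := ej'
          _ = tc22 s y (a * γ j * u) := by rw [hγj']
          _ = tc22 s (tc22 s (tc22 s y a) (γ j)) u := by simp only [tc22_mul, mul_assoc]
          _ = tc22 s (tc22 s y (γ j)) u := by rw [ea]
          _ = tc22 s j u := by rw [← ej]
          _ = u⁻¹ * j * s u := rfl)
      (by
        intro g hg
        have hrel1 : rel y (tc22 s y g) := ⟨g, hg, rfl⟩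
        have hψ1 : ψ (tc22 s y g) ≠ 0 := by
          rw [rel_ψ _ _ hrel1]
          exact hψy
        obtain ⟨y', hy', u, hu, hyu⟩ := h3 _ (rel_class _ _ hrel1 hyclass) hψ1
        have hrel2 : rel y' (tc22 s y g) := rel_of_U _ _ u hu hyu
        have hψ2 : ψ y' ≠ 0 := by
          rw [← rel_ψ _ _ hrel2]
          exact hψ1
        have hy'R : y' ∈ R'' := (hR''mem y').mpr ⟨hy', hψ2⟩
        have hrel3 : rel y y' := rel_trans _ _ _ hrel1 (rel_symm _ _ hrel2)
        have hy'J : y' ∈ J := (hJmem y').mpr ⟨hy'R, by rw [← rep_congr _ _ hrel3, hrepy]⟩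
        obtain ⟨hg', ey'⟩ := hγ y' hy'J
        refine ⟨y', hy'J, g * u⁻¹ * (γ y')⁻¹, u, ?_, hu, by group⟩
        apply hCΓ
        · exact hΓ.mul _ _ (hΓ.mul _ _ hg (hΓ.inv _ (hUΓ u hu))) (hΓ.inv _ hg')
        · -- `tc y (g u⁻¹ γ⁻¹) = y`
          have e4 : tc22 s y g = tc22 s y' u := hyu
          have e5 : tc22 s (tc22 s y g) u⁻¹ = y' := by rw [e4, tc22_inv]
          have e6 : tc22 s y' (γ y')⁻¹ = y := by
            have e7 := tc22_inv s y (γ y')
            rw [← ey'] at e7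
            exact e7
          calc (g * u⁻¹ * (γ y')⁻¹)⁻¹ * y * s (g * u⁻¹ * (γ y')⁻¹)
              = tc22 s y (g * u⁻¹ * (γ y')⁻¹) := rfl
            _ = tc22 s (tc22 s (tc22 s y g) u⁻¹) (γ y')⁻¹ := by simp only [tc22_mul, mul_assoc]
            _ = tc22 s y' (γ y')⁻¹ := by rw [e5]
            _ = y := e6)
    -- assemble
    have e5 : ∀ j ∈ J, ψ j * (cIndex U C j : ℂ)
        = ψ y * ((Set.ncard {c : Set G | ∃ t, C y t ∧ c = lc196 U (t * γ j)} : ℕ) : ℂ) := by
      intro j hj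
      rw [rel_ψ _ _ (hJrel j hj)]
      congr 2
      conv_lhs => rw [(hγ j hj).2]
      exact cIndex_tc22 s U C hCconj y (γ j)
    rw [Finset.sum_congr rfl e5, ← Finset.mul_sum, ← Nat.cast_sum, hcount, cIndex_eq22]
    push_cast
    ring

end Fermat.Agent.LT.T6.H22

end
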